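import Fermat.Agent.CharacterTheory.Irreducible
import Mathlib.RingTheory.IntegralClosure.IsIntegralClosure.Basic
import Mathlib.Data.ZMod.Basic

/-!
# The degrees of the irreducible characters

`∑ χ(x) ρ(x⁻¹)` is the scalar `|G| / d`, an algebraic integer since it comes from the group algebra
of the algebraic integers, so the degree divides `|G|`. For odd `|G|` the only real irreducible
character is trivial, and the degrees being odd gives Burnside's congruence modulo `16`.
-/

set_option autoImplicit false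
set_option linter.style.haveILetI false

noncomputable section

open Finset Module FA.FrobeniusGroups

namespace FA.CharacterTheory

variable {G : Type*} [Group G] [Fintype G]

/-- The twisted average of an irreducible representation is a scalar. -/
theorem exists_scalar_average {V : Type*} [AddCommGroup V] [Module ℂ V] [FiniteDimensional ℂ V]
    (ρ : Representation ℂ G V) [Representation.IsIrreducible ρ] {f : G → ℂ}
    (hf : ∀ g x, f (g * x * g⁻¹) = f x) :
    ∃ w : ℂ, ∑ x, f x • ρ x⁻¹ = algebraMap ℂ (Module.End ℂ V) w := by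
  set T : V →ₗ[ℂ] V := ∑ x, f x • ρ x⁻¹
  have hcomm : ∀ h, T ∘ₗ ρ h = ρ h ∘ₗ T := fun h => by
    show T * ρ h = ρ h * T
    simp only [T, sum_mul, mul_sum, smul_mul_assoc, mul_smul_comm, ← map_mul]
    refine Fintype.sum_equiv (MulAut.conj h⁻¹).toEquiv _ _ fun x => ?_
    show f x • ρ (x⁻¹ * h) = f (h⁻¹ * x * h⁻¹⁻¹) • ρ (h * (h⁻¹ * x * h⁻¹⁻¹)⁻¹)
    rw [hf]
    congr 2
    group
  obtain ⟨w, hw⟩ :=
    (Representation.IsIrreducible.algebraMap_intertwiningMap_bijective_of_isAlgClosed
      (ρ := ρ)).2 ⟨T, hcomm⟩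
  exact ⟨w, (congrArg Representation.IntertwiningMap.toLinearMap hw).symm⟩

open scoped Classical in
/-- **The degree divides the order** (Frobenius). -/
theorem finrank_dvd_card {V : Type*} [AddCommGroup V] [Module ℂ V] [FiniteDimensional ℂ V]
    (ρ : Representation ℂ G V) [Representation.IsIrreducible ρ] :
    finrank ℂ V ∣ Nat.card G := by
  set d := finrank ℂ V
  have hd : d ≠ 0 := finrank_ne_zero ρ
  haveI : Nontrivial V := Module.nontrivial_of_finrank_pos (Nat.pos_of_ne_zero hd)
  obtain ⟨w, hw⟩ := exists_scalar_average ρ (f := ρ.character) fun g x => ρ.char_conj x g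
  have htr := congrArg (LinearMap.trace ℂ V) hw
  simp only [map_sum, map_smul, smul_eq_mul, Algebra.algebraMap_eq_smul_one,
    LinearMap.trace_one] at htr
  have hnorm : pairing ρ.character ρ.character = 1 :=
    (FA.Solvable.inner_eq ρ ρ).trans (if_pos rfl)
  rw [pairing, inv_mul_eq_iff_eq_mul₀ (Nat.cast_ne_zero.2 Nat.card_pos.ne'), mul_one] at hnorm
  have hwd : w * d = (Nat.card G : ℂ) := htr.symm.trans hnorm
  set A := integralClosure ℤ ℂ
  haveI : Algebra.IsIntegral A (MonoidAlgebra A G) := Algebra.IsIntegral.of_finite A _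
  set z : MonoidAlgebra A G :=
    ∑ x, (⟨ρ.character x, FA.Solvable.isIntegral_character ρ x⟩ : A) • MonoidAlgebra.of A G x⁻¹
  have h1 : IsIntegral A (algebraMap ℂ (Module.End ℂ V) w) := by
    have h := (Algebra.IsIntegral.isIntegral (R := A) z).map
      (MonoidAlgebra.lift A (Module.End ℂ V) G ρ)
    simp only [z, map_sum, map_smul, MonoidAlgebra.lift_of] at h
    rw [← hw]
    exact h
  have h2 : IsIntegral ℤ w :=
    isIntegral_trans w ((isIntegral_algebraMap_iff (algebraMap ℂ (Module.End ℂ V)).injective).1 h1)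
  have hq : algebraMap ℚ ℂ ((Nat.card G : ℚ) / d) = w := by
    rw [map_div₀, map_natCast, map_natCast, ← hwd, mul_div_cancel_right₀ _ (Nat.cast_ne_zero.2 hd)]
  rw [← hq, isIntegral_algebraMap_iff (algebraMap ℚ ℂ).injective] at h2
  obtain ⟨k, hk⟩ := IsIntegrallyClosed.isIntegral_iff.1 h2
  rw [eq_intCast, eq_div_iff (Nat.cast_ne_zero.2 hd)] at hk
  exact Int.natCast_dvd_natCast.1 ⟨k, by rw [mul_comm]; exact_mod_cast hk.symm⟩

/-- An irreducible character's degree divides the order. -/
theorem irr_degree {χ : G → ℂ} (hχ : χ ∈ irr G) :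
    ∃ d : ℕ, χ 1 = d ∧ d ∣ Nat.card G := by
  obtain ⟨W, hW, rfl⟩ := exists_of_mem_irr hχ
  haveI := hW
  exact ⟨_, W.toRepresentation.char_one, finrank_dvd_card W.toRepresentation⟩

open scoped Classical in
/-- **Abelian groups** have only linear characters. -/
theorem irr_one_of_comm (hG : ∀ a b : G, a * b = b * a) {χ : G → ℂ} (hχ : χ ∈ irr G) :
    χ 1 = 1 := by
  obtain ⟨W, hW, rfl⟩ := exists_of_mem_irr hχ
  haveI := hW
  haveI : IsMulCommutative G := ⟨⟨hG⟩⟩
  rw [Representation.char_one, Representation.IsIrreducible.finrank_eq_one_of_isMulCommutative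
    W.toRepresentation, Nat.cast_one]

/-- The trivial character is irreducible. -/
theorem one_mem_irr : (fun _ => 1 : G → ℂ) ∈ irr G := by
  have hc : (Representation.trivial ℂ G ℂ).character = fun _ => 1 := funext fun x => by
    rw [Representation.character, show Representation.trivial ℂ G ℂ x = 1 from
      LinearMap.ext fun v => rfl, LinearMap.trace_one, Module.finrank_self, Nat.cast_one]
  rw [← hc]
  refine mem_irr_of_norm _ ?_
  rw [hc]
  simp [pairing, Nat.card_eq_fintype_card, Fintype.card_ne_zero]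

/-- The inverse of an irreducible character is one. -/
theorem inv_mem_irr {χ : G → ℂ} (hχ : χ ∈ irr G) : (fun x => χ x⁻¹) ∈ irr G := by
  classical
  have hn := pairing_irr hχ hχ
  obtain ⟨W, -, rfl⟩ := exists_of_mem_irr hχ
  rw [show (fun x => W.toRepresentation.character x⁻¹) = W.toRepresentation.dual.character from
    funext fun x => (Representation.char_dual _ x).symm]
  refine mem_irr_of_norm _ ?_
  rw [if_pos rfl] at hn
  rw [← hn, pairing, pairing]
  congr 1
  exact Fintype.sum_equiv (Equiv.inv G) _ _ fun x => by simp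

/-- Over a group of odd order only the trivial character is real. -/
theorem eq_one_of_inv_eq (hodd : Odd (Nat.card G)) {χ : G → ℂ} (hχ : χ ∈ irr G)
    (h : ∀ x, χ x⁻¹ = χ x) : χ = fun _ => 1 := by
  classical
  by_contra hne
  obtain ⟨d, hd, hdvd⟩ := irr_degree hχ
  obtain ⟨e, he⟩ := hodd.of_dvd_nat hdvd
  have h0 := pairing_irr hχ one_mem_irr
  rw [if_neg hne, pairing, mul_eq_zero, or_iff_right (inv_ne_zero
    (Nat.cast_ne_zero.2 Nat.card_pos.ne'))] at h0
  simp only [mul_one] at h0
  obtain ⟨W, -, hW⟩ := exists_of_mem_irr hχ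
  have hint : ∀ x, IsIntegral ℤ (χ x) := fun x =>
    hW ▸ FA.Solvable.isIntegral_character W.toRepresentation x
  have hne1 : ∀ x : G, x ≠ 1 → x ≠ x⁻¹ := fun x hx e => hx <| by
    have h2 : x ^ 2 = 1 := by rw [sq]; nth_rewrite 2 [e]; exact mul_inv_cancel x
    have h3 := orderOf_dvd_of_pow_eq_one h2
    have h4 : orderOf x ∣ Nat.card G := orderOf_dvd_natCard x
    rcases (Nat.dvd_prime Nat.prime_two).1 h3 with h5 | h5
    · exact orderOf_eq_one_iff.1 h5
    · exact absurd (even_iff_two_dvd.2 (h5 ▸ h4)) (Nat.not_even_iff_odd.2 hodd)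
  set ord := Fintype.equivFin G
  set P := (univ : Finset G).filter fun x => x ≠ 1 ∧ ord x < ord x⁻¹
  set Q := (univ : Finset G).filter fun x => x ≠ 1 ∧ ord x⁻¹ < ord x
  have hPQ : ∑ x ∈ Q, χ x = ∑ x ∈ P, χ x :=
    sum_nbij' (·⁻¹) (·⁻¹) (fun x hx => by simpa [P, Q] using hx)
      (fun x hx => by simpa [P, Q] using hx) (fun x _ => inv_inv x) (fun x _ => inv_inv x)
      fun x _ => (h x).symm
  have hsplit : ∑ x, χ x = χ 1 + (∑ x ∈ P, χ x + ∑ x ∈ Q, χ x) := by
    rw [← add_sum_erase _ _ (mem_univ (1 : G)), ← sum_union]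
    · congr 1
      refine sum_congr ?_ fun _ _ => rfl
      ext x
      simp only [P, Q, mem_erase, mem_univ, and_true, mem_union, mem_filter, true_and]
      exact ⟨fun hx => (lt_or_gt_of_ne fun e => hne1 x hx (ord.injective e)).imp
        (fun h' => ⟨hx, h'⟩) fun h' => ⟨hx, h'⟩, fun hx => hx.elim (·.1) (·.1)⟩
    · refine disjoint_left.2 fun x hx hx' => ?_
      exact lt_asymm (mem_filter.1 hx).2.2 (mem_filter.1 hx').2.2
  rw [hsplit, hPQ, hd, he] at h0
  have hhalf : IsIntegral ℤ (algebraMap ℚ ℂ (1 / 2)) := by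
    have hval : algebraMap ℚ ℂ (1 / 2) = -(∑ x ∈ P, χ x) - (e : ℂ) := by
      rw [map_div₀, map_one, map_ofNat]
      push_cast at h0
      linear_combination (1 / 2 : ℂ) * h0
    rw [hval]
    exact ((IsIntegral.sum _ fun x _ => hint x).neg).sub isIntegral_algebraMap
  rw [isIntegral_algebraMap_iff (algebraMap ℚ ℂ).injective] at hhalf
  obtain ⟨k, hk⟩ := IsIntegrallyClosed.isIntegral_iff.1 hhalf
  rw [eq_intCast, eq_div_iff two_ne_zero] at hk
  have : k * 2 = 1 := by exact_mod_cast hk
  omega

/-- **Burnside's congruence** for groups of odd order. -/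
theorem card_modEq_classes (hodd : Odd (Nat.card G)) :
    Nat.card G ≡ Nat.card (ConjClasses G) [MOD 16] := by
  classical
  choose! d hd hdvd using fun (χ : G → ℂ) (hχ : χ ∈ irr G) => irr_degree hχ
  have hsum : ∑ χ ∈ irr G, d χ ^ 2 = Nat.card G := by
    have := sum_sq_degree (G := G)
    rw [sum_congr rfl fun χ hχ => by rw [hd χ hχ]] at this
    exact_mod_cast this
  have hzero : ∑ χ ∈ irr G, ((d χ : ZMod 16) ^ 2 - 1) = 0 := by
    refine sum_involution (fun χ _ => fun x => χ x⁻¹) (fun χ hχ => ?_) (fun χ hχ hne heq => ?_)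
      (fun χ hχ => inv_mem_irr hχ) fun χ _ => funext fun x => by simp
    · have he : d (fun x => χ x⁻¹) = d χ := by
        have := hd _ (inv_mem_irr hχ)
        rw [inv_one, hd χ hχ] at this
        exact_mod_cast this.symm
      rw [he]
      obtain ⟨k, hk⟩ := hodd.of_dvd_nat (hdvd χ hχ)
      obtain ⟨m, hm⟩ := Nat.even_mul_succ_self k
      have hm' : ((k : ZMod 16) * (k + 1)) = m + m := by exact_mod_cast congrArg (Nat.cast) hm
      rw [hk]
      push_cast
      linear_combination (8 : ZMod 16) * hm' + (m : ZMod 16) *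
        (by decide : (16 : ZMod 16) = 0)
    · refine hne ?_
      have h1 := eq_one_of_inv_eq hodd hχ fun x => congrFun heq x
      have h2 : (d χ : ℂ) = 1 := by rw [← hd χ hχ, h1]
      rw [show d χ = 1 by exact_mod_cast h2]
      simp
  rw [← ZMod.natCast_eq_natCast_iff, ← hsum, ← card_irr, Nat.cast_sum, ← sub_eq_zero,
    ← hzero, sum_sub_distrib]
  simp

end FA.CharacterTheory

end
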