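import Fermat.Agent.CharacterTheory.Degree

/-!
# Artin's induction theorem

The sum of a character over the generators of a cyclic subgroup is an integer, by induction on the
subgroup. So `|G| χ = ∑_C Ind_C θ_C`, with `θ_C = |C| χ` on the generators of `C` and `0` elsewhere,
is an integral combination of characters induced from linear characters of cyclic subgroups.
-/

set_option autoImplicit false
set_option linter.style.haveILetI false

noncomputable section

open Finset Module FA.FrobeniusGroups

namespace FA.CharacterTheory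

variable {G : Type*} [Group G] [Fintype G]

open scoped Classical in
/-- The class function induced from a subgroup. -/
def induced (C : Subgroup G) (φ : C → ℂ) (x : G) : ℂ :=
  (Nat.card C : ℂ)⁻¹ * ∑ g : G, if h : g * x * g⁻¹ ∈ C then φ ⟨_, h⟩ else 0

open scoped Classical in
/-- The sum of a character over the generators of a subgroup is an integer. -/
theorem exists_int_sum_generators {V : Type*} [AddCommGroup V] [Module ℂ V]
    [FiniteDimensional ℂ V] (σ : Representation ℂ G V) (D : Subgroup G) :
    ∃ k : ℤ, ∑ x ∈ univ.filter (fun x => Subgroup.zpowers x = D), σ.character x = k := by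
  haveI := Fintype.ofFinite (Subgroup G)
  generalize hn : Nat.card D = n
  induction n using Nat.strong_induction_on generalizing D with
  | _ n ih =>
    subst hn
    obtain ⟨a, ha⟩ := exists_int_average (K := D) (σ.comp D.subtype)
    have hall : ∑ x ∈ univ.filter (fun x => x ∈ D), σ.character x =
        ((Nat.card D : ℤ) * a : ℤ) := by
      rw [sum_subtype _ (p := fun x => x ∈ D) (by simp)]
      push_cast
      rw [← ha, pairing, mul_inv_cancel_left₀ (Nat.cast_ne_zero.2 Nat.card_pos.ne')]
      exact Fintype.sum_equiv (Equiv.inv D) _ _ fun x => by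
        simp [Representation.character]
    choose! k hk using fun (D' : Subgroup G) (h : D' < D) =>
      ih (Nat.card D') ((Subgroup.card_le_of_le h.le).lt_of_ne fun e =>
        h.ne (Subgroup.eq_of_le_of_card_ge h.le e.ge)) D' rfl
    refine ⟨(Nat.card D : ℤ) * a - ∑ D' ∈ univ.filter (fun D' => D' < D), k D', ?_⟩
    rw [Int.cast_sub, ← hall, Int.cast_sum,
      ← sum_congr rfl fun D' hD' => hk D' (mem_filter.1 hD').2,
      eq_sub_iff_add_eq]
    have hd : Set.PairwiseDisjoint (↑((univ : Finset (Subgroup G)).filter fun D' => D' < D))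
        fun D' => (univ : Finset G).filter fun x => Subgroup.zpowers x = D' :=
      fun A _ B _ hne => disjoint_left.2 fun x hx hx' =>
        hne ((mem_filter.1 hx).2.symm.trans (mem_filter.1 hx').2)
    rw [← sum_biUnion hd, ← sum_union]
    · refine sum_congr ?_ fun _ _ => rfl
      ext x
      simp only [mem_union, mem_filter, mem_univ, true_and, mem_biUnion]
      constructor
      · rintro (h | ⟨D', h, h'⟩)
        · exact h ▸ Subgroup.mem_zpowers x
        · exact h.le (h' ▸ Subgroup.mem_zpowers x)
      · intro h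
        rcases eq_or_lt_of_le (Subgroup.zpowers_le.2 h) with he | hlt
        · exact Or.inl he
        · exact Or.inr ⟨_, hlt, rfl⟩
    · refine disjoint_left.2 fun x hx hx' => ?_
      obtain ⟨D', hD', hx'⟩ := mem_biUnion.1 hx'
      exact (mem_filter.1 hD').2.ne ((mem_filter.1 hx').2.symm.trans (mem_filter.1 hx).2)

/-- An irreducible character of an abelian group is a homomorphism to `ℂˣ`. -/
theorem exists_hom_of_comm (hG : ∀ a b : G, a * b = b * a) {χ : G → ℂ} (hχ : χ ∈ irr G) :
    ∃ ψ : G →* ℂˣ, (fun x => (ψ x : ℂ)) = χ := by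
  obtain ⟨W, hW, rfl⟩ := exists_of_mem_irr hχ
  haveI := hW
  haveI : IsMulCommutative G := ⟨⟨hG⟩⟩
  set ρ := W.toRepresentation
  have h1 : finrank ℂ W.toSubmodule = 1 :=
    Representation.IsIrreducible.finrank_eq_one_of_isMulCommutative ρ
  haveI : Nontrivial W.toSubmodule :=
    Module.nontrivial_of_finrank_pos (by omega : 0 < finrank ℂ W.toSubmodule)
  have hsc : ∀ x, ρ x = algebraMap ℂ (Module.End ℂ W.toSubmodule) (ρ.character x) := fun x => by
    obtain ⟨w, hw⟩ :=
      (Representation.IsIrreducible.algebraMap_intertwiningMap_bijective_of_isAlgClosed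
        (ρ := ρ)).2 ⟨ρ x, fun y => by
          show ρ x * ρ y = ρ y * ρ x
          rw [← map_mul, ← map_mul, hG]⟩
    have he : ρ x = algebraMap ℂ (Module.End ℂ W.toSubmodule) w :=
      (congrArg Representation.IntertwiningMap.toLinearMap hw).symm
    rw [Representation.character, he, Algebra.algebraMap_eq_smul_one, map_smul,
      LinearMap.trace_one, h1]
    simp [Algebra.algebraMap_eq_smul_one]
  refine ⟨MonoidHom.toHomUnits
    { toFun := ρ.character
      map_one' := by rw [Representation.char_one, h1, Nat.cast_one]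
      map_mul' := fun x y => (algebraMap ℂ (Module.End ℂ W.toSubmodule)).injective <| by
        rw [map_mul, ← hsc, ← hsc, ← hsc, map_mul] }, rfl⟩

/-- The induced functions of linear characters of cyclic subgroups. -/
def cyclicInduced (G : Type*) [Group G] [Fintype G] : Set (G → ℂ) :=
  {f | ∃ C : Subgroup G, IsCyclic C ∧ ∃ ψ : C →* ℂˣ, f = induced C fun x => (ψ x : ℂ)}

open scoped Classical in
/-- **Artin's induction theorem.** -/
theorem artin {V : Type*} [AddCommGroup V] [Module ℂ V] [FiniteDimensional ℂ V]
    (ρ : Representation ℂ G V) :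
    Nat.card G • ρ.character ∈ AddSubgroup.closure (cyclicInduced G) := by
  haveI := Fintype.ofFinite (Subgroup G)
  set θ : (C : Subgroup G) → C → ℂ := fun C x =>
    if Subgroup.zpowers (x : G) = C then (Nat.card C : ℂ) * ρ.character x else 0
  have hsum : Nat.card G • ρ.character = ∑ C : Subgroup G, induced C (θ C) := by
    funext x
    rw [Finset.sum_apply, Pi.smul_apply, nsmul_eq_mul]
    have hterm : ∀ C : Subgroup G, induced C (θ C) x =
        ∑ g : G, if Subgroup.zpowers (g * x * g⁻¹) = C then ρ.character x else 0 := fun C => by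
      rw [induced, mul_sum]
      refine sum_congr rfl fun g _ => ?_
      by_cases hz : Subgroup.zpowers (g * x * g⁻¹) = C
      · rw [if_pos hz, dif_pos (hz ▸ Subgroup.mem_zpowers _)]
        simp only [θ]
        rw [if_pos hz, inv_mul_cancel_left₀ (Nat.cast_ne_zero.2 Nat.card_pos.ne'),
          ρ.char_conj]
      · rw [if_neg hz]
        by_cases hm : g * x * g⁻¹ ∈ C
        · rw [dif_pos hm]
          simp only [θ]
          rw [if_neg hz, mul_zero]
        · rw [dif_neg hm, mul_zero]
    simp only [hterm]
    rw [sum_comm]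
    simp [Nat.card_eq_fintype_card]
  rw [hsum]
  refine AddSubgroup.sum_mem _ fun C _ => ?_
  by_cases hC : IsCyclic C
  swap
  · have hθ : θ C = fun _ => 0 := funext fun x => if_neg fun h => hC <| by
      rw [← h]; infer_instance
    have h0 : induced C (θ C) = 0 := by
      funext x
      simp [induced, hθ]
    rw [h0]
    exact zero_mem _
  letI := hC.commGroup
  have hcomm : ∀ a b : C, a * b = b * a := fun a b => mul_comm a b
  have hcls : ∀ g x : C, θ C (g * x * g⁻¹) = θ C x := fun g x => by
    rw [hcomm g x, mul_inv_cancel_right]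
  choose! n hn using fun (φ : C → ℂ) (hφ : φ ∈ irr C) => show ∃ n : ℤ, pairing (θ C) φ = n by
    obtain ⟨W, -, rfl⟩ := exists_of_mem_irr hφ
    obtain ⟨k, hk⟩ := exists_int_sum_generators
      (Representation.tprod (ρ.comp C.subtype) W.toRepresentation.dual) (⊤ : Subgroup C)
    refine ⟨k, ?_⟩
    rw [← hk, pairing, mul_sum, sum_filter]
    refine sum_congr rfl fun x _ => ?_
    have hiff : Subgroup.zpowers x = (⊤ : Subgroup C) ↔ Subgroup.zpowers (x : G) = C := by
      rw [← Subgroup.coe_subtype, ← MonoidHom.map_zpowers]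
      constructor
      · intro h
        rw [h, ← MonoidHom.range_eq_map, Subgroup.range_subtype]
      · intro h
        refine Subgroup.map_injective C.subtype_injective (h.trans ?_)
        rw [← MonoidHom.range_eq_map, Subgroup.range_subtype]
    simp only [θ]
    by_cases hx : Subgroup.zpowers (x : G) = C
    · rw [if_pos hx, if_pos (hiff.2 hx), Representation.char_tensor, Pi.mul_apply,
        Representation.char_dual, mul_assoc, inv_mul_cancel_left₀
          (Nat.cast_ne_zero.2 Nat.card_pos.ne')]
      rfl
    · rw [if_neg hx, if_neg (mt hiff.1 hx), zero_mul, mul_zero]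
  choose! ψ hψ using fun (φ : C → ℂ) (hφ : φ ∈ irr C) => exists_hom_of_comm hcomm hφ
  have hexp : induced C (θ C) = ∑ φ ∈ irr C, n φ • induced C fun x => (ψ φ x : ℂ) := by
    funext x
    simp only [Finset.sum_apply, Pi.smul_apply]
    simp only [zsmul_eq_mul, induced, mul_sum]
    rw [sum_comm]
    refine sum_congr rfl fun g _ => ?_
    split_ifs with h
    · rw [expansion hcls ⟨_, h⟩, mul_sum]
      refine sum_congr rfl fun φ hφ => ?_
      rw [hn φ hφ, show (ψ φ ⟨_, h⟩ : ℂ) = φ ⟨_, h⟩ from congrFun (hψ φ hφ) _]
      ring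
    · simp
  rw [hexp]
  exact AddSubgroup.sum_mem _ fun φ _ =>
    AddSubgroup.zsmul_mem _ (AddSubgroup.subset_closure
      (show _ ∈ cyclicInduced G from ⟨C, hC, ψ φ, rfl⟩)) _

open scoped Classical in
/-- **Frobenius reciprocity** for induced functions. -/
theorem pairing_induced (C : Subgroup G) (φ : C → ℂ) {F : G → ℂ}
    (hF : ∀ g x, F (g * x * g⁻¹) = F x) :
    pairing (induced C φ) F = pairing φ fun x => F x := by
  simp only [pairing, induced]
  rw [sum_congr rfl fun x _ => mul_assoc _ _ _, ← mul_sum]
  simp only [sum_mul]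
  rw [sum_comm]
  have hinner : ∀ g : G, ∑ x : G, (if h : g * x * g⁻¹ ∈ C then φ ⟨_, h⟩ else 0) * F x⁻¹ =
      ∑ y : C, φ y * F (y : G)⁻¹ := fun g => by
    rw [Fintype.sum_equiv (MulAut.conj g).toEquiv
      (fun x => (if h : g * x * g⁻¹ ∈ C then φ ⟨_, h⟩ else 0) * F x⁻¹)
      (fun y => if h : y ∈ C then φ ⟨y, h⟩ * F y⁻¹ else 0) fun x => ?_]
    · rw [← sum_filter_add_sum_filter_not univ (· ∈ C),
        sum_eq_zero (s := univ.filter fun y => ¬y ∈ C) (fun y hy => dif_neg (mem_filter.1 hy).2),
        add_zero, sum_subtype _ (p := (· ∈ C)) (by simp)]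
      exact sum_congr rfl fun y _ => dif_pos y.2
    · simp only [MulEquiv.toEquiv_eq_coe, MulEquiv.coe_toEquiv, MulAut.conj_apply]
      by_cases h : g * x * g⁻¹ ∈ C
      · rw [dif_pos h, dif_pos h, show (g * x * g⁻¹)⁻¹ = g * x⁻¹ * g⁻¹ by group, hF]
      · rw [dif_neg h, dif_neg h, zero_mul]
  rw [sum_congr rfl fun g _ => hinner g, sum_const, card_univ, ← Nat.card_eq_fintype_card,
    nsmul_eq_mul]
  have hN : (Nat.card G : ℂ) ≠ 0 := Nat.cast_ne_zero.2 Nat.card_pos.ne'
  simp only [Subgroup.coe_inv]
  field_simp

/-- An induced linear character is an integral combination of irreducible characters. -/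
theorem exists_int_induced (C : Subgroup G) (ψ : C →* ℂˣ) :
    ∃ n : (G → ℂ) → ℤ,
      (induced C fun x => (ψ x : ℂ)) = fun x => ∑ χ ∈ irr G, (n χ : ℂ) * χ x := by
  classical
  set σ : Representation ℂ C ℂ :=
    ((algebraMap ℂ (Module.End ℂ ℂ)).toMonoidHom.comp (Units.coeHom ℂ)).comp ψ
  have hσ : σ.character = fun x => (ψ x : ℂ) := funext fun x => by
    show LinearMap.trace ℂ ℂ (algebraMap ℂ (Module.End ℂ ℂ) (ψ x : ℂ)) = _
    rw [Algebra.algebraMap_eq_smul_one, map_smul, LinearMap.trace_one, Module.finrank_self]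
    simp
  choose! n hn using fun (χ : G → ℂ) (hχ : χ ∈ irr G) =>
    show ∃ n : ℤ, pairing (induced C fun x => (ψ x : ℂ)) χ = n by
      obtain ⟨W, -, rfl⟩ := exists_of_mem_irr hχ
      rw [pairing_induced C _ fun g x => W.toRepresentation.char_conj x g, ← hσ]
      exact exists_int_pairing σ (W.toRepresentation.comp C.subtype)
  refine ⟨n, funext fun x => ?_⟩
  rw [expansion (f := induced C fun x => (ψ x : ℂ)) (fun g y => ?_) x]
  · exact sum_congr rfl fun χ hχ => by rw [hn χ hχ]
  · simp only [induced]
    congr 1
    refine Fintype.sum_equiv (Equiv.mulRight g) _ _ fun k => ?_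
    have he : k * g * y * (k * g)⁻¹ = k * (g * y * g⁻¹) * k⁻¹ := by group
    simp only [Equiv.coe_mulRight, he]

end FA.CharacterTheory

end
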