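import Fermat.Agent.FrobeniusGroups.Kernel
import Fermat.Agent.Klein.Polyhedral
import Mathlib.LinearAlgebra.FiniteDimensional.Basic

/-!
# The irreducible characters of a finite group

The irreducible characters are those of the atoms of the regular representation, and form a basis of
the class functions: there are as many as conjugacy classes, and expanding the indicator of a class
gives the orthogonality of the columns.
-/

set_option autoImplicit false
set_option linter.style.haveILetI false

noncomputable section

open Finset Module FA.FrobeniusGroups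

namespace FA.CharacterTheory

variable (G : Type*) [Group G] [Fintype G]

open scoped Classical in
/-- The irreducible complex characters. -/
def irr : Finset (G → ℂ) :=
  ((exists_regular_atoms G).choose.map fun W => W.toRepresentation.character).toFinset

variable {G}

/-- The members of `irr G` are characters of irreducible representations. -/
theorem exists_of_mem_irr {χ : G → ℂ} (hχ : χ ∈ irr G) :
    ∃ W : Subrepresentation (FA.Solvable.regular G),
      Representation.IsIrreducible W.toRepresentation ∧ W.toRepresentation.character = χ := by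
  classical
  obtain ⟨W, hW, rfl⟩ := Multiset.mem_map.1 (Multiset.mem_toFinset.1 hχ)
  exact ⟨W, (exists_regular_atoms G).choose_spec.1 W hW, rfl⟩

theorem irr_conj {χ : G → ℂ} (hχ : χ ∈ irr G) (g x : G) : χ (g * x * g⁻¹) = χ x := by
  obtain ⟨W, -, rfl⟩ := exists_of_mem_irr hχ
  exact W.toRepresentation.char_conj x g

open scoped Classical in
/-- **Row orthogonality.** -/
theorem pairing_irr {χ ψ : G → ℂ} (hχ : χ ∈ irr G) (hψ : ψ ∈ irr G) :
    pairing χ ψ = if χ = ψ then 1 else 0 := by
  obtain ⟨A, hA, rfl⟩ := exists_of_mem_irr hχ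
  obtain ⟨B, hB, rfl⟩ := exists_of_mem_irr hψ
  haveI := hA
  haveI := hB
  exact FA.Solvable.inner_eq A.toRepresentation B.toRepresentation

/-- A class function orthogonal to all irreducible characters is `0`. -/
theorem eq_zero_of_pairing {f : G → ℂ} (hf : ∀ g x, f (g * x * g⁻¹) = f x)
    (h : ∀ χ ∈ irr G, pairing f χ = 0) : f = 0 := by
  classical
  obtain ⟨hL, hsum⟩ := (exists_regular_atoms G).choose_spec
  refine eq_zero_of_orthogonal hL hsum hf fun W hW => h _ ?_
  exact Multiset.mem_toFinset.2 (Multiset.mem_map_of_mem _ hW)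

/-- **Completeness**: the expansion of a class function. -/
theorem expansion {f : G → ℂ} (hf : ∀ g x, f (g * x * g⁻¹) = f x) (x : G) :
    f x = ∑ χ ∈ irr G, pairing f χ * χ x := by
  classical
  have h := eq_zero_of_pairing (f := fun x => f x - ∑ χ ∈ irr G, pairing f χ * χ x)
    (fun g y => ?_) fun ψ hψ => ?_
  · exact sub_eq_zero.1 (congrFun h x)
  · rw [hf]
    congr 1
    exact sum_congr rfl fun χ hχ => by rw [irr_conj hχ]
  · rw [pairing_sub_left, pairing_sum_left (irr G) (fun χ => pairing f χ) fun χ => χ,
      sum_congr rfl fun χ hχ => by rw [pairing_irr hχ hψ], sub_eq_zero]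
    simp [hψ]

/-- Every irreducible character is in `irr G`. -/
theorem character_mem_irr {V : Type*} [AddCommGroup V] [Module ℂ V] [FiniteDimensional ℂ V]
    (σ : Representation ℂ G V) [Representation.IsIrreducible σ] : σ.character ∈ irr G := by
  classical
  by_contra hno
  have h0 : σ.character = 0 := eq_zero_of_pairing (fun g x => σ.char_conj x g) fun χ hχ => by
    obtain ⟨W, hW, rfl⟩ := exists_of_mem_irr hχ
    haveI := hW
    exact (FA.Solvable.inner_eq σ W.toRepresentation).trans
      (if_neg fun e : σ.character = _ => hno (by rw [e]; exact hχ))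
  have h1 := congrFun h0 1
  rw [Representation.char_one, Pi.zero_apply, Nat.cast_eq_zero] at h1
  exact finrank_ne_zero σ h1

/-- A character of norm `1` is irreducible. -/
theorem mem_irr_of_norm {V : Type*} [AddCommGroup V] [Module ℂ V] [FiniteDimensional ℂ V]
    (σ : Representation ℂ G V) (h : pairing σ.character σ.character = 1) :
    σ.character ∈ irr G := by
  classical
  obtain ⟨L, hL, hsum⟩ := FA.Solvable.exists_atoms σ ⊤
  have hfull : σ.character = fun g => (L.map fun W => W.toRepresentation.character g).sum := by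
    funext g
    rw [← hsum]
    refine (congrFun (Representation.char_iso (ρ := (⊤ : Subrepresentation σ).toRepresentation)
      (σ := σ) (Representation.Equiv.mk (LinearEquiv.ofTop ⊤ rfl) fun k => ?_)) g).symm
    ext v
    rfl
  set m : Subrepresentation σ → ℕ := fun W =>
    (L.filter fun W' => W'.toRepresentation.character = W.toRepresentation.character).card
  have hm : ∀ W ∈ L, pairing σ.character W.toRepresentation.character = m W := fun W hW => by
    haveI := hL W hW
    rw [hfull]
    exact FA.Solvable.pairing_eq W.toRepresentation L hL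
  have hexp : pairing σ.character σ.character = (((L.map m).sum : ℕ) : ℂ) := by
    rw [Nat.cast_multiset_sum, Multiset.map_map]
    conv_lhs => arg 1; rw [hfull]
    simp only [pairing, ← Multiset.sum_map_mul_right, Finset.sum_eq_multiset_sum]
    rw [Multiset.sum_map_sum_map, ← Multiset.sum_map_mul_left]
    refine congrArg Multiset.sum (Multiset.map_congr rfl fun W hW => ?_)
    have h' := hm W hW
    rw [pairing_comm] at h'
    exact h'
  rw [h] at hexp
  have hone : (L.map m).sum = 1 := by exact_mod_cast hexp.symm
  have hpos : ∀ W ∈ L, 1 ≤ m W := fun W hW =>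
    Multiset.card_pos_iff_exists_mem.2 ⟨W, Multiset.mem_filter.2 ⟨hW, rfl⟩⟩
  have hcard : Multiset.card L ≤ 1 := by
    have := Multiset.card_nsmul_le_sum (s := L.map m) (a := 1) fun x hx => by
      obtain ⟨W, hW, rfl⟩ := Multiset.mem_map.1 hx
      exact hpos W hW
    rwa [Multiset.card_map, hone, nsmul_one, Nat.cast_id] at this
  rcases Nat.le_one_iff_eq_zero_or_eq_one.1 hcard with h0 | h0
  · rw [Multiset.card_eq_zero.1 h0] at hone
    exact absurd hone (by simp)
  · obtain ⟨W, rfl⟩ := Multiset.card_eq_one.1 h0
    haveI := hL W (Multiset.mem_singleton_self W)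
    rw [show σ.character = W.toRepresentation.character by rw [hfull]; simp]
    exact character_mem_irr W.toRepresentation

open scoped Classical in
/-- **The number of irreducible characters.** -/
theorem card_irr : (irr G).card = Nat.card (ConjClasses G) := by
  haveI : Fintype (ConjClasses G) := Fintype.ofFinite _
  set F : irr G → ConjClasses G → ℂ := fun χ c => (χ : G → ℂ) (Quotient.out c)
  have hF : ∀ (χ : irr G) x, F χ (ConjClasses.mk x) = (χ : G → ℂ) x := fun χ x => by
    have hc : IsConj x (Quotient.out (ConjClasses.mk x)) :=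
      ConjClasses.mk_eq_mk_iff_isConj.1 (Quotient.out_eq (ConjClasses.mk x)).symm
    obtain ⟨g, hg⟩ := isConj_iff.1 hc
    show (χ : G → ℂ) (Quotient.out (ConjClasses.mk x)) = _
    rw [← hg, irr_conj χ.2]
  have hli : LinearIndependent ℂ F := by
    rw [Fintype.linearIndependent_iff]
    intro c hc χ
    have h0 : (fun x => ∑ i : irr G, c i * (i : G → ℂ) x) = fun _ => 0 := funext fun x => by
      simpa [hF, Finset.sum_apply] using congrFun hc (ConjClasses.mk x)
    have h1 : pairing (fun x => ∑ i : irr G, c i * (i : G → ℂ) x) (χ : G → ℂ) = 0 := by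
      rw [h0]; simp [pairing]
    rw [pairing_sum_left univ c fun i : irr G => (i : G → ℂ),
      sum_congr rfl fun i _ => by rw [pairing_irr i.2 χ.2]] at h1
    simpa [Subtype.coe_inj] using h1
  have hsp : Submodule.span ℂ (Set.range F) = ⊤ := eq_top_iff.2 fun v _ => by
    have hv : v = ∑ i : irr G, pairing (fun x => v (ConjClasses.mk x)) i • F i := by
      funext c
      obtain ⟨x, rfl⟩ := ConjClasses.mk_surjective c
      have hcl : ∀ g y : G, v (ConjClasses.mk (g * y * g⁻¹)) = v (ConjClasses.mk y) := fun g y => by
        rw [ConjClasses.mk_eq_mk_iff_isConj.2 (isConj_iff.2 ⟨g, rfl⟩ : IsConj y (g * y * g⁻¹))]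
      rw [Finset.sum_apply, expansion (f := fun y => v (ConjClasses.mk y)) hcl x,
        ← Finset.sum_coe_sort]
      exact sum_congr rfl fun i _ => by rw [Pi.smul_apply, hF, smul_eq_mul]
    rw [hv]
    exact sum_mem fun i _ => Submodule.smul_mem _ _ (Submodule.subset_span ⟨i, rfl⟩)
  have h := finrank_eq_card_basis (Basis.mk hli hsp.ge)
  rw [Module.finrank_fintype_fun_eq_card, Fintype.card_coe] at h
  rw [Nat.card_eq_fintype_card, h]

open scoped Classical in
/-- **Column orthogonality.** -/
theorem column_orthogonality (g h : G) :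
    ∑ χ ∈ irr G, χ h * χ g⁻¹ =
      if IsConj g h then (Nat.card (Subgroup.centralizer ({g} : Set G)) : ℂ) else 0 := by
  set cls := univ.filter fun x => IsConj g x
  set f : G → ℂ := fun x => if IsConj g x then 1 else 0
  have hf : ∀ c x, f (c * x * c⁻¹) = f x := fun c x => by
    have hx : IsConj x (c * x * c⁻¹) := isConj_iff.2 ⟨c, rfl⟩
    simp only [f, show IsConj g (c * x * c⁻¹) ↔ IsConj g x from
      ⟨fun e => e.trans hx.symm, fun e => e.trans hx⟩]
  have hpair : ∀ χ ∈ irr G, pairing f χ = (Nat.card G : ℂ)⁻¹ * cls.card * χ g⁻¹ := fun χ hχ => by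
    simp only [pairing, f, ite_mul, one_mul, zero_mul, ← sum_filter]
    rw [sum_congr rfl fun x hx => ?_, sum_const, nsmul_eq_mul, mul_assoc]
    obtain ⟨c, rfl⟩ := isConj_iff.1 (mem_filter.1 hx).2
    rw [show (c * g * c⁻¹)⁻¹ = c * g⁻¹ * c⁻¹ by group, irr_conj hχ]
  have he : f h = (Nat.card G : ℂ)⁻¹ * cls.card * ∑ χ ∈ irr G, χ h * χ g⁻¹ := by
    rw [expansion hf h, mul_sum]
    exact sum_congr rfl fun χ hχ => by rw [hpair χ hχ]; ring
  have hcls : cls.card * Nat.card (Subgroup.centralizer ({g} : Set G)) = Nat.card G := by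
    rw [← Subgroup.index_mul_card (Subgroup.centralizer ({g} : Set G))]
    congr 1
    rw [FA.Klein.index_centralizer_singleton, Set.ncard_eq_toFinset_card']
    congr 1
    ext x
    simp [cls, isConj_iff]
  have hN : (Nat.card G : ℂ) ≠ 0 := Nat.cast_ne_zero.2 Nat.card_pos.ne'
  have hc0 : (cls.card : ℂ) ≠ 0 := Nat.cast_ne_zero.2
    (Finset.card_ne_zero.2 ⟨g, mem_filter.2 ⟨mem_univ _, IsConj.refl g⟩⟩)
  have he' : ∑ χ ∈ irr G, χ h * χ g⁻¹ = (Nat.card G : ℂ) / cls.card * f h := by
    rw [he]
    field_simp
  rw [he', show (Nat.card G : ℂ) / cls.card =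
    (Nat.card (Subgroup.centralizer ({g} : Set G)) : ℂ) by
      rw [div_eq_iff hc0, ← hcls]; push_cast; ring]
  simp only [f]
  split_ifs <;> simp

/-- The degree of an irreducible character. -/
theorem irr_one {χ : G → ℂ} (hχ : χ ∈ irr G) : ∃ d : ℕ, d ≠ 0 ∧ χ 1 = d := by
  obtain ⟨W, hW, rfl⟩ := exists_of_mem_irr hχ
  haveI := hW
  exact ⟨_, finrank_ne_zero W.toRepresentation, W.toRepresentation.char_one⟩

/-- **The sum of the squares of the degrees.** -/
theorem sum_sq_degree : ∑ χ ∈ irr G, χ 1 ^ 2 = (Nat.card G : ℂ) := by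
  classical
  have h := column_orthogonality (1 : G) 1
  rw [inv_one, if_pos (IsConj.refl 1)] at h
  simp only [sq]
  rw [h]
  congr 1
  rw [show Subgroup.centralizer ({1} : Set G) = ⊤ from eq_top_iff.2 fun x _ =>
    Subgroup.mem_centralizer_singleton_iff.2 (by simp), Subgroup.card_top]

end FA.CharacterTheory

end
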